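/-
S26 / VAR-type core for SEESAW (P14) and CUBE3 (P15), raw Mathlib vocabulary, interface-free.
Author: helper2925.

Horizontal / vertical codimension-one points for an open, geometrically irreducible morphism
`f : X ⟶ Y` (e.g. the projection `C ×_K T ⟶ T`):

* `closure_eq_preimage_of_coheight_eq_one`  (V): a codimension-one point `z` of `X` whose image is
  not maximal (not a generic point) satisfies `closure {z} = f ⁻¹' closure {f z}` and `f z` has
  codimension one.
* `isClosed_setOf_fiber_subset` / `setOf_fiber_subset_ne_univ`  (B): for closed `P ≠ univ` the set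
  of `y` whose whole fibre lies in `P` is a proper closed subset.
* `closure_eq_preimage_singleton_of_forall_closedPoint`  (R): a codimension-one point `z` all of
  whose closed specialisations over an open `U ∋ f z` project (under `g`) into a finite set `S` of
  closed non-maximal points satisfies `closure {z} = g ⁻¹' {c}` for some `c ∈ S`.
-/
import Mathlib

set_option autoImplicit false

open AlgebraicGeometry CategoryTheory Order TopologicalSpace

universe u

namespace Fermat.Agent.S26.H2925

variable {X Y : Scheme.{u}}

/-- The generic point of the preimage of `closure {y}` under an open geometrically irreducible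
morphism. -/
noncomputable def genPreimage (f : X ⟶ Y) [GeometricallyIrreducible f] (hf : IsOpenMap f)
    (y : Y) : X :=
  (f.isIrreducible_preimage hf (isIrreducible_singleton (x := y)).closure).genericPoint

theorem isGenericPoint_genPreimage (f : X ⟶ Y) [GeometricallyIrreducible f] (hf : IsOpenMap f)
    (y : Y) : IsGenericPoint (genPreimage f hf y) (f ⁻¹' closure {y}) :=
  (f.isIrreducible_preimage hf (isIrreducible_singleton (x := y)).closure).isGenericPoint_genericPoint
    (isClosed_closure.preimage f.continuous)

theorem closure_genPreimage (f : X ⟶ Y) [GeometricallyIrreducible f] (hf : IsOpenMap f)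
    (y : Y) : closure {genPreimage f hf y} = f ⁻¹' closure {y} :=
  (isGenericPoint_genPreimage f hf y).def

theorem genPreimage_le_iff (f : X ⟶ Y) [GeometricallyIrreducible f] (hf : IsOpenMap f)
    (y y' : Y) : genPreimage f hf y ≤ genPreimage f hf y' ↔ y ≤ y' := by
  rw [Scheme.le_iff_specializes, Scheme.le_iff_specializes, specializes_iff_closure_subset,
    specializes_iff_closure_subset, closure_genPreimage, closure_genPreimage]
  constructor
  · intro h
    have hs : Function.Surjective f := f.surjective
    intro w hw
    obtain ⟨x, rfl⟩ := hs w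
    exact h hw
  · intro h
    exact Set.preimage_mono h

theorem genPreimage_strictMono (f : X ⟶ Y) [GeometricallyIrreducible f] (hf : IsOpenMap f) :
    StrictMono (genPreimage f hf) := by
  intro y y' h
  rw [lt_iff_le_not_ge] at h ⊢
  exact ⟨(genPreimage_le_iff f hf y y').2 h.1, fun h' => h.2 ((genPreimage_le_iff f hf y' y).1 h')⟩

theorem le_genPreimage (f : X ⟶ Y) [GeometricallyIrreducible f] (hf : IsOpenMap f) (z : X) :
    z ≤ genPreimage f hf (f z) := by
  rw [Scheme.le_iff_specializes]
  exact (isGenericPoint_genPreimage f hf (f z)).specializes (subset_closure rfl)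

/-- (V) A codimension-one point whose image is not maximal is the generic point of the preimage
of the closure of its image, and its image has codimension one. -/
theorem closure_eq_preimage_of_coheight_eq_one (f : X ⟶ Y) [GeometricallyIrreducible f]
    (hf : IsOpenMap f) {z : X} (hz : coheight z = 1) {y : Y} (hy : f z < y) :
    closure {z} = f ⁻¹' closure {f z} ∧ coheight (f z) = 1 := by
  have h1 : z ≤ genPreimage f hf (f z) := le_genPreimage f hf z
  have h2 : genPreimage f hf (f z) < genPreimage f hf y := genPreimage_strictMono f hf hy
  have hzeq : z = genPreimage f hf (f z) := by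
    by_contra hne
    have hlt : z < genPreimage f hf (f z) := by
      rw [lt_iff_le_not_ge]
      refine ⟨h1, fun h3 => hne ?_⟩
      exact ((Scheme.le_iff_specializes.1 h3).antisymm (Scheme.le_iff_specializes.1 h1)).eq
    have ha := coheight_add_one_le h2
    have hb := coheight_add_one_le hlt
    rw [hz] at hb
    have hc : coheight (genPreimage f hf (f z)) = 0 := by
      have : coheight (genPreimage f hf (f z)) + 1 ≤ 0 + 1 := by simpa using hb
      exact le_antisymm (by simpa using (ENat.add_le_add_iff_right (by simp)).1 this) bot_le
    rw [hc] at ha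
    simp at ha
  refine ⟨?_, ?_⟩
  · conv_lhs => rw [hzeq]
    exact closure_genPreimage f hf (f z)
  · apply le_antisymm
    · have := coheight_le_coheight_apply_of_strictMono _ (genPreimage_strictMono f hf) (f z)
      rw [← hzeq, hz] at this
      exact this
    · have := coheight_add_one_le hy
      exact le_trans (by simp) this

/-- (B), closedness: for an open map, the set of points whose whole fibre lies in a closed set is
closed. -/
theorem isClosed_setOf_fiber_subset (f : X ⟶ Y) (hf : IsOpenMap f) {P : Set X}
    (hP : IsClosed P) : IsClosed {y : Y | f ⁻¹' {y} ⊆ P} := by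
  have : {y : Y | f ⁻¹' {y} ⊆ P} = (f '' Pᶜ)ᶜ := by
    ext y
    simp only [Set.mem_ofPred_eq, Set.mem_compl_iff, Set.mem_image, not_exists, not_and]
    constructor
    · intro h x hx hxy
      exact hx (h hxy)
    · intro h x hx
      by_contra hxP
      exact h x hxP hx
  rw [this]
  exact (hf _ hP.isOpen_compl).isClosed_compl

/-- (B), properness: if `P ≠ univ` then not every fibre lies in `P`. -/
theorem setOf_fiber_subset_ne_univ (f : X ⟶ Y) {P : Set X} (hP : P ≠ Set.univ) :
    {y : Y | f ⁻¹' {y} ⊆ P} ≠ Set.univ := by
  intro h
  apply hP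
  ext x
  simp only [Set.mem_univ, iff_true]
  have : f x ∈ {y : Y | f ⁻¹' {y} ⊆ P} := by rw [h]; trivial
  exact this rfl

/-- (R) Let `g : X ⟶ C` be open and geometrically irreducible, `f : X ⟶ T` any morphism, `X`
Jacobson.  If `z` has codimension one, `f z` lies in the open set `U`, and every closed point of
`closure {z}` lying over `U` is mapped by `g` into the finite set `S` of closed, non-maximal points
of `C`, then `closure {z} = g ⁻¹' {c}` for some `c ∈ S`. -/
theorem closure_eq_preimage_singleton_of_forall_closedPoint {C T : Scheme.{u}}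
    (g : X ⟶ C) (f : X ⟶ T) [GeometricallyIrreducible g] (hg : IsOpenMap g) [JacobsonSpace X]
    {z : X} (hz : coheight z = 1) {U : Set T} (hU : IsOpen U) (hzU : f z ∈ U)
    {S : Set C} (hS : S.Finite) (hSc : ∀ c ∈ S, IsClosed {c}) (hSm : ∀ c ∈ S, ¬ IsMax c)
    (h : ∀ x ∈ closure {z}, IsClosed {x} → f x ∈ U → g x ∈ S) :
    ∃ c ∈ S, closure {z} = g ⁻¹' {c} := by
  have hSclosed : IsClosed S := by
    have : S = ⋃ c ∈ S, {c} := by simp
    rw [this]
    exact hS.isClosed_biUnion hSc
  -- the locally closed set `closure {z} ∩ f ⁻¹' U`
  have hloc : IsLocallyClosed (closure {z} ∩ f ⁻¹' U) :=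
    isClosed_closure.isLocallyClosed.inter (hU.preimage f.continuous).isLocallyClosed
  have hsub : closure {z} ∩ f ⁻¹' U ⊆ g ⁻¹' S := by
    have hcl : IsClosed (g ⁻¹' S) := hSclosed.preimage g.continuous
    have hdense := JacobsonSpace.closure_inter_closedPoints_eq_closure hloc
    intro x hx
    have hx' : x ∈ closure ((closure {z} ∩ f ⁻¹' U) ∩ closedPoints X) := by
      rw [hdense]; exact subset_closure hx
    refine (closure_minimal ?_ hcl) hx'
    rintro w ⟨⟨hw1, hw2⟩, hw3⟩
    exact h w hw1 hw3 hw2
  have hgz : g z ∈ S := hsub ⟨subset_closure rfl, hzU⟩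
  refine ⟨g z, hgz, ?_⟩
  obtain ⟨c', hc'⟩ := not_isMax_iff.1 (hSm _ hgz)
  have := (closure_eq_preimage_of_coheight_eq_one g hg hz hc').1
  rw [this, (hSc _ hgz).closure_eq]

end Fermat.Agent.S26.H2925
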