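/-
S26 / P14 SEESAW: the bridge hypotheses `IsProductLike` of helper7004's abstract seesaw
(`Fermat/Agent/S26/SEESAW/Core7004.lean`) for the concrete product `C ×_K T`.
Author: helper2925.

Inputs (verbatim copies of other helpers' files): helper7004 Core7004 (+ helper2384 DIV API),
helper5416 DIV/{Bridge,Generization,Hartogs}5416 + UFD/L2_Hartogs, helper4943 H4943/PrimeStalk
(+ helper3376 Var/TensorDomain), helper1876 SEESAW/{ProdIrred,RPoint,RTop}1876, and my HorVert.
-/
import Fermat.Agent.S26.SEESAW.Core7004
import Fermat.Agent.S26.TChainDefs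
import Fermat.Agent.S26.H2925.HorVert
import Fermat.Agent.S26.SEESAW.ProdIrred1876
import Fermat.Agent.S26.SEESAW.RPoint1876
import Fermat.Agent.S26.H4943.PrimeStalk
import Fermat.Agent.S26.DIV.Hartogs5416
import Fermat.Agent.S26.UFD.L2_Hartogs

set_option autoImplicit false

universe u

open CategoryTheory CategoryTheory.Limits AlgebraicGeometry

namespace Fermat.Agent.S26.CxT2925

open Fermat.Agent.S26 Fermat.Agent.S26.SEESAW.H7004 Fermat.Agent.S26.DIV.H2384

noncomputable section

/-! ### Height-one points -/

section HtOne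

variable {X : Scheme.{u}} [IsIntegral X]

theorem eq_genericPoint_of_specializes' {x : X} (h : x ⤳ genericPoint X) : x = genericPoint X :=
  (h.antisymm ((genericPoint_spec X).specializes trivial)).eq

theorem isMax_genericPoint : IsMax (genericPoint X) := by
  intro y hy
  rw [Scheme.le_iff_specializes] at hy
  rw [eq_genericPoint_of_specializes' hy]

theorem eq_genericPoint_of_isMax {x : X} (h : IsMax x) : x = genericPoint X := by
  have h1 : x ≤ genericPoint X := Scheme.le_iff_specializes.2 ((genericPoint_spec X).specializes trivial)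
  exact eq_genericPoint_of_specializes' (Scheme.le_iff_specializes.1 (h h1))

/-- helper7004's topological height-one points are the points of coheight one. -/
theorem isHtOne_iff_coheight (x : X) : IsHtOne x ↔ Order.coheight x = 1 := by
  constructor
  · rintro ⟨hne, hgen⟩
    apply le_antisymm
    · have : Order.coheight x ≤ ((1 : ℕ) : ℕ∞) := by
        rw [Order.coheight_le_coe_iff]
        intro y hy
        have hy' := Scheme.le_iff_specializes.1 hy.le
        rcases hgen y hy' with rfl | rfl
        · exact absurd hy (lt_irrefl _)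
        · have : Order.coheight (genericPoint X) = 0 := Order.coheight_eq_zero.2 isMax_genericPoint
          rw [this]; exact zero_lt_one
      simpa using this
    · rw [Order.one_le_iff_ne_zero, Order.coheight_ne_zero]
      exact fun h => hne (eq_genericPoint_of_isMax h)
  · intro h
    refine ⟨?_, ?_⟩
    · rintro rfl
      rw [Order.coheight_eq_zero.2 isMax_genericPoint] at h
      exact zero_ne_one h
    · intro y hy
      by_cases hxy : y = x
      · exact Or.inl hxy
      · right
        have hlt : x < y := by
          rw [lt_iff_le_not_ge]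
          refine ⟨Scheme.le_iff_specializes.2 hy, fun h' => hxy ?_⟩
          exact ((Scheme.le_iff_specializes.1 h').antisymm hy).eq.symm
        have h1 : Order.coheight x ≤ ((1 : ℕ) : ℕ∞) := by rw [h]; rfl
        rw [Order.coheight_le_coe_iff] at h1
        have h2 := h1 y hlt
        have h3 : Order.coheight y = 0 := by
          have : Order.coheight y < 1 := by simpa using h2
          exact Order.lt_one_iff.1 this
        exact eq_genericPoint_of_isMax (Order.coheight_eq_zero.1 h3)

end HtOne

/-! ### Hartogs -/

section HartogsSec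

variable {X : Scheme.{u}} [IsIntegral X]

/-- The algebraic Hartogs property for a locally noetherian integral scheme with integrally
closed stalks. -/
theorem hartogs_of_normal [IsLocallyNoetherian X]
    (hn : ∀ x : X, IsIntegrallyClosed (X.presheaf.stalk x)) : Hartogs X := by
  intro x f hf
  have := hn x
  exact Fermat.Agent.S26.DIV.Hartogs5416.mem_localRing_of_forall_coheight_one
    (fun R _ _ _ _ F _ _ _ y hy => Fermat.Agent.S26.UFD.L2_hartogs R F y hy) x f
    (fun z hz hz1 => hf z ((isHtOne_iff_coheight z).2 hz1) hz)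

end HartogsSec

/-! ### Generic points and generic fibres -/

section Generic

variable {X B : Scheme.{u}} [IsIntegral X] [IsIntegral B]

/-- An open morphism of integral schemes maps the generic point to the generic point. -/
theorem map_genericPoint_of_isOpenMap (p : X ⟶ B) (hp : IsOpenMap p) :
    p.base (genericPoint X) = genericPoint B := by
  have hopen : IsOpen (Set.range p) := hp.isOpen_range
  have hne : (Set.range p).Nonempty := ⟨_, ⟨genericPoint X, rfl⟩⟩
  obtain ⟨x, hx⟩ : genericPoint B ∈ Set.range p :=
    ((genericPoint_spec B).mem_open_set_iff hopen).2 (by simpa using hne)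
  have h1 : p.base (genericPoint X) ⤳ p.base x :=
    p.base.hom.map_specializes ((genericPoint_spec X).specializes trivial)
  have hx' : p.base x = genericPoint B := hx
  rw [hx'] at h1
  exact eq_genericPoint_of_specializes' h1

/-- An open geometrically irreducible morphism has generic fibres in the sense of helper7004. -/
theorem hasGenericFibres_of_isOpenMap (p : X ⟶ B) [GeometricallyIrreducible p]
    (hp : IsOpenMap p) : HasGenericFibres p := by
  intro β
  have hcl := Fermat.Agent.S26.H2925.closure_genPreimage p hp β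
  refine ⟨Fermat.Agent.S26.H2925.genPreimage p hp β, ?_, ?_⟩
  · have h1 : β ⤳ p.base (Fermat.Agent.S26.H2925.genPreimage p hp β) := by
      rw [specializes_iff_mem_closure]
      have : Fermat.Agent.S26.H2925.genPreimage p hp β ∈ p ⁻¹' closure {β} := by
        rw [← hcl]; exact subset_closure rfl
      exact this
    obtain ⟨x, hx⟩ := p.surjective β
    have h2 : Fermat.Agent.S26.H2925.genPreimage p hp β ⤳ x := by
      rw [specializes_iff_mem_closure, hcl]
      show p x ∈ closure {β}
      rw [hx]; exact subset_closure rfl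
    have h3 : p.base (Fermat.Agent.S26.H2925.genPreimage p hp β) ⤳ p.base x :=
      p.base.hom.map_specializes h2
    have hx' : p.base x = β := hx
    rw [hx'] at h3
    exact (h3.antisymm h1).eq
  · intro x hx
    rw [specializes_iff_mem_closure, hcl]
    exact specializes_iff_mem_closure.1 hx

end Generic

/-! ### Pulled-back uniformizers -/

section Unif

variable {X B : Scheme.{u}} [IsIntegral X] [IsIntegral B]

/-- If the stalk maps of `p` preserve prime elements (e.g. a projection of `C ×_K T`), then at a
vertical height-one point the pull-back of a uniformizer downstairs is a uniformizer. -/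
theorem hasPulledUniformizers_of_stalkPrime [IsLocallyNoetherian X] [IsLocallyNoetherian B]
    (hnX : ∀ x : X, IsIntegrallyClosed (X.presheaf.stalk x))
    (hnB : ∀ b : B, IsIntegrallyClosed (B.presheaf.stalk b))
    (p : X ⟶ B) [GeometricallyIrreducible p] (hp : IsOpenMap p)
    (hprime : Fermat.Agent.S26.H4943.StalkPrime p) : HasPulledUniformizers p := by
  intro ξ hξ hv
  have hξ1 : Order.coheight ξ = 1 := (isHtOne_iff_coheight ξ).1 hξ
  have hlt : p ξ < genericPoint B := by
    rw [lt_iff_le_not_ge]
    refine ⟨Scheme.le_iff_specializes.2 ((genericPoint_spec B).specializes trivial), fun h => hv ?_⟩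
    exact eq_genericPoint_of_specializes' (Scheme.le_iff_specializes.1 h)
  obtain ⟨-, hβ1⟩ :=
    Fermat.Agent.S26.H2925.closure_eq_preimage_of_coheight_eq_one p hp hξ1 hlt
  have := hnB (p ξ)
  have := hnX ξ
  have hdvrB : IsDiscreteValuationRing (B.presheaf.stalk (p ξ)) :=
    Fermat.Agent.S26.DIV.Hartogs5416.isDiscreteValuationRing_stalk (p ξ) hβ1
  have hdvrX : IsDiscreteValuationRing (X.presheaf.stalk ξ) :=
    Fermat.Agent.S26.DIV.Hartogs5416.isDiscreteValuationRing_stalk ξ hξ1
  obtain ⟨τ, hτ⟩ := IsDiscreteValuationRing.exists_irreducible (B.presheaf.stalk (p ξ))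
  have hτp : Prime τ := hτ.prime
  have hτ' : Prime ((p.stalkMap ξ).hom τ) := hprime ξ τ hτp
  have hirr : Irreducible ((p.stalkMap ξ).hom τ) := hτ'.irreducible
  refine ⟨algebraMap (B.presheaf.stalk (p ξ)) B.functionField τ, ?_, ?_⟩
  · intro h0
    exact hτ.ne_zero (algebraMap_stalk_injective (p ξ) (by rw [h0, map_zero]))
  · intro f hf
    have hpull : pullFun p (algebraMap (B.presheaf.stalk (p ξ)) B.functionField τ) =
        algebraMap (X.presheaf.stalk ξ) X.functionField ((p.stalkMap ξ).hom τ) :=
      pullFun_algebraMap_at p ξ τ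
    rw [hpull]
    obtain ⟨a, b, hb, rfl⟩ := IsFractionRing.div_surjective (A := X.presheaf.stalk ξ) f
    have hb0 : b ≠ 0 := nonZeroDivisors.ne_zero hb
    have ha0 : a ≠ 0 := by
      rintro rfl
      simp at hf
    obtain ⟨n, u, hu⟩ := IsDiscreteValuationRing.eq_unit_mul_pow_irreducible ha0 hirr
    obtain ⟨k, v, hv'⟩ := IsDiscreteValuationRing.eq_unit_mul_pow_irreducible hb0 hirr
    refine ⟨(k : ℤ) - n, ?_⟩
    set ϖ := algebraMap (X.presheaf.stalk ξ) X.functionField ((p.stalkMap ξ).hom τ) with hϖ
    have hϖ0 : ϖ ≠ 0 := by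
      intro h0
      exact hirr.ne_zero (algebraMap_stalk_injective ξ (by rw [← hϖ, h0, map_zero]))
    have hv0 : algebraMap (X.presheaf.stalk ξ) X.functionField (v : X.presheaf.stalk ξ) ≠ 0 := by
      intro h0
      exact v.ne_zero (algebraMap_stalk_injective ξ (by rw [h0, map_zero]))
    have key : algebraMap (X.presheaf.stalk ξ) X.functionField a /
        algebraMap (X.presheaf.stalk ξ) X.functionField b * ϖ ^ ((k : ℤ) - n) =
        algebraMap (X.presheaf.stalk ξ) X.functionField (u : X.presheaf.stalk ξ) /
          algebraMap (X.presheaf.stalk ξ) X.functionField (v : X.presheaf.stalk ξ) := by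
      rw [hu, hv', map_mul, map_mul, map_pow, map_pow, ← hϖ, zpow_sub₀ hϖ0, zpow_natCast,
        zpow_natCast]
      have h1 : ϖ ^ n ≠ 0 := pow_ne_zero n hϖ0
      have h2 : ϖ ^ k ≠ 0 := pow_ne_zero k hϖ0
      field_simp
    rw [key]
    exact isUnitAt_div (isUnitAt_algebraMap_of_isUnit u.isUnit)
      (isUnitAt_algebraMap_of_isUnit v.isUnit)

end Unif

/-! ### Slices -/

section Slices

variable {K : Type u} [Field K] {C T : Scheme.{u}}
  (sC : C ⟶ Spec (CommRingCat.of K)) (sT : T ⟶ Spec (CommRingCat.of K))

theorem sliceL_fst (t : Pts sT) : sliceL sC t ≫ pullback.fst sC sT = 𝟙 C :=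
  pullback.lift_fst _ _ _

theorem sliceL_snd (t : Pts sT) : sliceL sC t ≫ pullback.snd sC sT = sC ≫ t.1 :=
  pullback.lift_snd _ _ _

theorem sliceR_snd (c₀ : Pts sC) : sliceR c₀ sT ≫ pullback.snd sC sT = 𝟙 T :=
  pullback.lift_snd _ _ _

theorem sliceR_fst (c₀ : Pts sC) : sliceR c₀ sT ≫ pullback.fst sC sT = sT ≫ c₀.1 :=
  pullback.lift_fst _ _ _

/-- The fibre `C × {t}` lies over a single point of `T`. -/
theorem snd_sliceL_const (t : Pts sT) (c c' : C) :
    (pullback.snd sC sT).base ((sliceL sC t).base c) =
      (pullback.snd sC sT).base ((sliceL sC t).base c') := by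
  have h : ∀ z : C, (pullback.snd sC sT).base ((sliceL sC t).base z) = t.1.base (sC.base z) := by
    intro z
    have := congrArg (fun φ : C ⟶ T => φ.base z) (sliceL_snd sC sT t)
    simpa using this
  rw [h, h]
  congr 1
  exact Subsingleton.elim _ _

end Slices

/-! ### The product `C ×_K T` -/

section Prod

variable {K : Type u} [Field K] [IsAlgClosed K] {C T : Scheme.{u}}
  (sC : C ⟶ Spec (CommRingCat.of K)) (sT : T ⟶ Spec (CommRingCat.of K))

/-- Stalk maps of the first projection preserve prime elements. -/
theorem stalkPrime_fst [IsIntegral C] [IsIntegral T] :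
    Fermat.Agent.S26.H4943.StalkPrime (pullback.fst sC sT) := by
  have h := (Fermat.Agent.S26.H4943.stalkPrime_of_isOpenImmersion (pullbackSymmetry sC sT).hom).comp
    (Fermat.Agent.S26.H4943.stalkPrime_snd sT sC)
  rwa [pullbackSymmetry_hom_comp_snd] at h

/-- Closed points over good `t` are dense (field `dense` of `IsProductLike`). -/
theorem dense_prod [LocallyOfFiniteType sC] [LocallyOfFiniteType sT] [IsIntegral C]
    [IsIntegral T] [IsIntegral (pullback sC sT)]
    (S Z : Set ↥(pullback sC sT)) (hS : IsClosed S)
    (hgen : genericPoint ↥(pullback sC sT) ∉ S) (hZ : IsClosed Z)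
    (ξ : ↥(pullback sC sT)) (hξ : (pullback.snd sC sT).base ξ = genericPoint T)
    (h : ∀ (t : Pts sT) (c : C), (sliceL sC t).base (genericPoint C) ∉ S →
      ξ ⤳ (sliceL sC t).base c → (sliceL sC t).base c ∈ Z) : ξ ∈ Z := by
  by_contra hξZ
  have hopen : IsOpenMap (pullback.snd sC sT) := (pullback.snd sC sT).isOpenMap
  have hU : IsOpen ((pullback.snd sC sT) '' Sᶜ) := hopen _ hS.isOpen_compl
  have hηU : genericPoint T ∈ (pullback.snd sC sT) '' Sᶜ :=
    ⟨genericPoint ↥(pullback sC sT), hgen, map_genericPoint_of_isOpenMap _ hopen⟩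
  have hJ : JacobsonSpace ↥(pullback sC sT) :=
    Fermat.Agent.S26.SEESAW.H1876.jacobsonSpace_pullback sC sT
  have hL : IsLocallyClosed (closure {ξ} ∩
      ((pullback.snd sC sT) ⁻¹' ((pullback.snd sC sT) '' Sᶜ) ∩ Zᶜ)) :=
    isClosed_closure.isLocallyClosed.inter
      ((hU.preimage (pullback.snd sC sT).continuous).inter hZ.isOpen_compl).isLocallyClosed
  have hLne : (closure {ξ} ∩
      ((pullback.snd sC sT) ⁻¹' ((pullback.snd sC sT) '' Sᶜ) ∩ Zᶜ)).Nonempty :=
    ⟨ξ, subset_closure rfl, by rw [Set.mem_preimage]; exact hξ ▸ hηU, hξZ⟩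
  obtain ⟨x, ⟨hxcl, hxU, hxZ⟩, hxclosed⟩ := nonempty_inter_closedPoints hLne hL
  have hxc : IsClosed ({x} : Set ↥(pullback sC sT)) := hxclosed
  -- the `K`-point of the closed point `x`
  set a : Spec (CommRingCat.of K) ⟶ pullback sC sT :=
    pointOfClosedPoint (pullback.fst sC sT ≫ sC) x hxc with ha
  have haf : a ≫ pullback.fst sC sT ≫ sC = 𝟙 _ := pointOfClosedPoint_comp _ x hxc
  have hax : ∀ z, a.base z = x := fun z => pointOfClosedPoint_apply _ x hxc z
  let t : Pts sT := ⟨a ≫ pullback.snd sC sT, by
    rw [Category.assoc, ← pullback.condition]; exact haf⟩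
  have hslice : (a ≫ pullback.fst sC sT) ≫ sliceL sC t = a := by
    apply pullback.hom_ext
    · rw [Category.assoc, sliceL_fst, Category.comp_id]
    · rw [Category.assoc, sliceL_snd, ← Category.assoc, Category.assoc a, haf, Category.id_comp]
  have hx : (sliceL sC t).base ((pullback.fst sC sT).base x) = x := by
    have h1 := congrArg (fun φ : Spec (CommRingCat.of K) ⟶ pullback sC sT =>
      φ.base (IsLocalRing.closedPoint K)) hslice
    simp only [Scheme.Hom.comp_base, TopCat.hom_comp, ContinuousMap.comp_apply] at h1
    rw [hax] at h1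
    exact h1
  -- the fibre over `t` is not inside `S`
  have hfib : (sliceL sC t).base (genericPoint C) ∉ S := by
    intro hin
    obtain ⟨x', hx'S, hx'⟩ := hxU
    have hrange : x' ∈ Set.range (sliceL sC t) := by
      have hr := Fermat.Agent.S26.SEESAW.H1876.range_sliceFst sC sT t.1 t.2
      have hmem : x' ∈ (pullback.snd sC sT) ⁻¹' (Set.range t.1) := by
        refine ⟨IsLocalRing.closedPoint K, ?_⟩
        have h2 : (pullback.snd sC sT) x' = (pullback.snd sC sT) x := hx'
        rw [h2, ← hax (IsLocalRing.closedPoint K)]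
        rfl
      rw [← hr] at hmem
      exact hmem
    obtain ⟨c'', rfl⟩ := hrange
    have hsp : (sliceL sC t).base (genericPoint C) ⤳ (sliceL sC t).base c'' :=
      (sliceL sC t).base.hom.map_specializes ((genericPoint_spec C).specializes trivial)
    exact hx'S (hS.closure_subset_iff.2 (Set.singleton_subset_iff.2 hin)
      (specializes_iff_mem_closure.1 hsp))
  have hfin := h t ((pullback.fst sC sT).base x) hfib
    (by rw [hx]; exact specializes_iff_mem_closure.2 hxcl)
  rw [hx] at hfin
  exact hxZ hfin

/-- **The bridge hypotheses of the abstract seesaw hold for `C ×_K T`**: `K` algebraically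
closed, `C`, `T` integral, locally of finite type with integrally closed local rings (e.g. smooth),
`C ×_K T` integral with integrally closed local rings. -/
theorem isProductLike_prod [LocallyOfFiniteType sC] [LocallyOfFiniteType sT] [IsIntegral C]
    [IsIntegral T] [IsIntegral (pullback sC sT)]
    (hnC : ∀ x : C, IsIntegrallyClosed (C.presheaf.stalk x))
    (hnT : ∀ x : T, IsIntegrallyClosed (T.presheaf.stalk x))
    (hnX : ∀ x : ↥(pullback sC sT), IsIntegrallyClosed ((pullback sC sT).presheaf.stalk x))
    (c₀ : Pts sC) :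
    IsProductLike (pullback.fst sC sT) (pullback.snd sC sT) (fun t : Pts sT => sliceL sC t)
      (sliceR c₀ sT) := by
  have hopenC : IsOpenMap (pullback.fst sC sT) := (pullback.fst sC sT).isOpenMap
  have hopenT : IsOpenMap (pullback.snd sC sT) := (pullback.snd sC sT).isOpenMap
  have hgiC : GeometricallyIrreducible sC :=
    Fermat.Agent.S26.SEESAW.H1876.geometricallyIrreducible_of_isAlgClosed sC
  have hgiT : GeometricallyIrreducible sT :=
    Fermat.Agent.S26.SEESAW.H1876.geometricallyIrreducible_of_isAlgClosed sT
  have hnoeC : IsLocallyNoetherian C := LocallyOfFiniteType.isLocallyNoetherian sC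
  have hnoeT : IsLocallyNoetherian T := LocallyOfFiniteType.isLocallyNoetherian sT
  have hnoeX : IsLocallyNoetherian (pullback sC sT) :=
    LocallyOfFiniteType.isLocallyNoetherian (pullback.fst sC sT ≫ sC)
  exact
    { i_pC := fun t => sliceL_fst sC sT t
      i_pT := fun t c => snd_sliceL_const sC sT t c (genericPoint C)
      j_pT := sliceR_snd sC sT c₀
      pC_gen := map_genericPoint_of_isOpenMap _ hopenC
      pT_gen := map_genericPoint_of_isOpenMap _ hopenT
      hartogs := hartogs_of_normal hnX
      gfC := hasGenericFibres_of_isOpenMap _ hopenC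
      gfT := hasGenericFibres_of_isOpenMap _ hopenT
      unifC := hasPulledUniformizers_of_stalkPrime hnX hnC _ hopenC (stalkPrime_fst sC sT)
      unifT := hasPulledUniformizers_of_stalkPrime hnX hnT _ hopenT
        (Fermat.Agent.S26.H4943.stalkPrime_snd sC sT)
      dense := dense_prod sC sT }

end Prod

end

end Fermat.Agent.S26.CxT2925
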