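/-
S26 / P14 SEESAW: the frozen export `seesaw` (TChain.lean) reduced to ONE curve input.
Author: helper2925.

`seesaw_of_curveInput` has exactly the signature of the frozen export `Fermat.Agent.S26.seesaw`
plus the hypothesis `CurveInput sC sT` (= (C1) + (K3): the non-special effective divisor `E` of
the curve `C` (P12) and Riemann's inequality on the generic fibre of `C × T ⟶ T` (P13 + the
dictionary of P11)).  Everything else (the bridge hypotheses `IsProductLike` of helper7004's
abstract seesaw) is proved in `CxT.lean`; normality of the local rings is the frozen P6 export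
`stalk_isIntegrallyClosed_of_smooth`.
-/
import Fermat.Agent.S26.H2925.CxT

set_option autoImplicit false

universe u

open CategoryTheory CategoryTheory.Limits AlgebraicGeometry

namespace Fermat.Agent.S26.CxT2925

open Fermat.Agent.S26 Fermat.Agent.S26.SEESAW.H7004 Fermat.Agent.S26.DIV.H2384

noncomputable section

variable {K : Type u} [Field K] {C T : Scheme.{u}}

/-- The curve input of the seesaw theorem: an (effective) Cartier divisor `E` on `C` which is the
only effective divisor in its class (`l(E) = 1`), such that for every Cartier divisor `D` on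
`C × T` some `div F0 ± D + pr_C^* E` is effective at all horizontal height-one points. -/
def CurveInput (sC : C ⟶ Spec (CommRingCat.of K)) (sT : T ⟶ Spec (CommRingCat.of K))
    [IsIntegral C] [IsIntegral T] [IsIntegral (pullback sC sT)] : Prop :=
  ∃ E : Fam C, E.IsCartier ∧
    (∀ E' : Fam C, E'.IsCartier → E'.IsEffective → E'.LinEquiv E → E'.Same E) ∧
    ∀ D : Fam (pullback sC sT), D.IsCartier →
      ∃ F0 : ((pullback sC sT).functionField)ˣ,
        HorizEff (pullback.snd sC sT)
          (D * Fam.const F0 * Fam.pullback (pullback.fst sC sT) E) ∨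
        HorizEff (pullback.snd sC sT)
          (D⁻¹ * Fam.const F0 * Fam.pullback (pullback.fst sC sT) E)

/-- **Seesaw** (frozen P14 export, modulo the curve input). -/
theorem seesaw_of_curveInput [IsAlgClosed K] (sC : C ⟶ Spec (CommRingCat.of K))
    (sT : T ⟶ Spec (CommRingCat.of K)) (hC : IsSmoothProperCurve sC)
    [IsIntegral C] [IsIntegral T] [Smooth sT] [IsProper sT] [IsIntegral (pullback sC sT)]
    (hCI : CurveInput sC sT)
    (c₀ : Pts sC) (D : Fam (pullback sC sT)) (hD : D.IsCartier)
    (h₁ : ∀ t : Pts sT, Fam.LinEquiv (Fam.pullc (sliceL sC t) D) 1)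
    (h₂ : Fam.LinEquiv (Fam.pullc (sliceR c₀ sT) D) 1) :
    Fam.LinEquiv D 1 := by
  have hsm1 : SmoothOfRelativeDimension 1 sC := hC.smooth
  have hsmC : Smooth sC := SmoothOfRelativeDimension.smooth 1 sC
  have hsmX : Smooth (pullback.fst sC sT ≫ sC) := inferInstance
  obtain ⟨E, hE, hE1, hK3⟩ := hCI
  have S := isProductLike_prod sC sT
    (fun x => stalk_isIntegrallyClosed_of_smooth sC x)
    (fun x => stalk_isIntegrallyClosed_of_smooth sT x)
    (fun x => stalk_isIntegrallyClosed_of_smooth (pullback.fst sC sT ≫ sC) x) c₀
  exact Fermat.Agent.S26.SEESAW.H7004.seesaw S hE hE1 hD (hK3 D hD) h₁ h₂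

end

end Fermat.Agent.S26.CxT2925

namespace Fermat.Agent.S26.CxT2925

open Fermat.Agent.S26 Fermat.Agent.S26.SEESAW.H7004 Fermat.Agent.S26.DIV.H2384

noncomputable section

variable {K : Type u} [Field K] {C T : Scheme.{u}}

/-- `(C1)` from "`L(E) = K`": if every `h` with `h * E` regular is a unit everywhere, then an
effective Cartier divisor linearly equivalent to `E` is `E`. -/
theorem same_of_effective_of_linEquiv_of_LE [IsIntegral C] {E : Fam C}
    (hEL : ∀ h : (C.functionField)ˣ,
      (∀ x : C, (h : C.functionField) * ((E x : (C.functionField)ˣ) : C.functionField) ∈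
        localRing C x) → ∀ x : C, IsUnitAt x (h : C.functionField))
    (E' : Fam C) (hE' : E'.IsEffective) (h : E'.LinEquiv E) : E'.Same E := by
  obtain ⟨f, hf⟩ := h
  have hreg : ∀ x : C, (f : C.functionField) * ((E x : (C.functionField)ˣ) : C.functionField) ∈
      localRing C x := by
    intro x
    have h1 := (hf x).2
    have h2 := Subring.mul_mem _ (hE' x) h1
    have h3 : ((E' x : (C.functionField)ˣ) : C.functionField) *
        (((E' x / (E * Fam.const f) x : (C.functionField)ˣ)) : C.functionField)⁻¹ =
        (f : C.functionField) * ((E x : (C.functionField)ˣ) : C.functionField) := by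
      rw [← Units.val_inv_eq_inv_val, ← Units.val_mul, ← Units.val_mul]
      congr 1
      show E' x * (E' x / (E x * f))⁻¹ = f * E x
      rw [inv_div, mul_div_cancel, mul_comm]
    rwa [h3] at h2
  have hunit := hEL f hreg
  intro x
  have h1 := hf x
  have h2 := isUnitAt_mul h1 (hunit x)
  have h3 : (((E' x / (E * Fam.const f) x : (C.functionField)ˣ)) : C.functionField) *
      (f : C.functionField) = (((E' x / E x : (C.functionField)ˣ)) : C.functionField) := by
    rw [← Units.val_mul]
    congr 1
    show E' x / (E x * f) * f = E' x / E x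
    rw [div_mul_eq_div_div, div_mul_cancel]
  rwa [h3] at h2

/-- **Seesaw** (frozen P14 export) from the Riemann input in the form of the P14 board v1
(`hRiem` of `SEESAW/Main.lean`, origin/helper856; with or without the sign alternative, and only
for divisors with trivial fibres).  NO `hUFD`, NO `hP`: only normality (frozen P6 export). -/
theorem seesaw_of_riemann [IsAlgClosed K] (sC : C ⟶ Spec (CommRingCat.of K))
    (sT : T ⟶ Spec (CommRingCat.of K)) (hC : IsSmoothProperCurve sC)
    [IsIntegral C] [IsIntegral T] [Smooth sT] [IsProper sT] [IsIntegral (pullback sC sT)]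
    (hRiem : ∃ E : Fam C, E.IsCartier ∧
      (∀ h : (C.functionField)ˣ,
        (∀ x : C, (h : C.functionField) * ((E x : (C.functionField)ˣ) : C.functionField) ∈
          localRing C x) → ∀ x : C, IsUnitAt x (h : C.functionField)) ∧
      ∀ D : Fam (pullback sC sT), D.IsCartier →
        (∀ t : Pts sT, Fam.LinEquiv (Fam.pullc (sliceL sC t) D) 1) →
        ∃ F : ((pullback sC sT).functionField)ˣ,
          (∀ x : ↥(pullback sC sT), (pullback.snd sC sT).base x = genericPoint T →
            (F : (pullback sC sT).functionField) *
              ((D x : ((pullback sC sT).functionField)ˣ) : (pullback sC sT).functionField) *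
              ((Fam.pullback (pullback.fst sC sT) E x : ((pullback sC sT).functionField)ˣ) :
                (pullback sC sT).functionField) ∈ localRing (pullback sC sT) x) ∨
          (∀ x : ↥(pullback sC sT), (pullback.snd sC sT).base x = genericPoint T →
            (F : (pullback sC sT).functionField) *
              (((D x)⁻¹ : ((pullback sC sT).functionField)ˣ) : (pullback sC sT).functionField) *
              ((Fam.pullback (pullback.fst sC sT) E x : ((pullback sC sT).functionField)ˣ) :
                (pullback sC sT).functionField) ∈ localRing (pullback sC sT) x))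
    (c₀ : Pts sC) (D : Fam (pullback sC sT)) (hD : D.IsCartier)
    (h₁ : ∀ t : Pts sT, Fam.LinEquiv (Fam.pullc (sliceL sC t) D) 1)
    (h₂ : Fam.LinEquiv (Fam.pullc (sliceR c₀ sT) D) 1) :
    Fam.LinEquiv D 1 := by
  have hsm1 : SmoothOfRelativeDimension 1 sC := hC.smooth
  have hsmC : Smooth sC := SmoothOfRelativeDimension.smooth 1 sC
  have hsmX : Smooth (pullback.fst sC sT ≫ sC) := inferInstance
  obtain ⟨E, hE, hEL, hK3⟩ := hRiem
  have S := isProductLike_prod sC sT
    (fun x => stalk_isIntegrallyClosed_of_smooth sC x)
    (fun x => stalk_isIntegrallyClosed_of_smooth sT x)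
    (fun x => stalk_isIntegrallyClosed_of_smooth (pullback.fst sC sT ≫ sC) x) c₀
  obtain ⟨F, hF⟩ := hK3 D hD h₁
  refine Fermat.Agent.S26.SEESAW.H7004.seesaw S hE
    (fun E' _ hE'eff hlin => same_of_effective_of_linEquiv_of_LE hEL E' hE'eff hlin) hD
    ⟨F, ?_⟩ h₁ h₂
  rcases hF with hF | hF
  · left
    intro ξ _ hξ
    have := hF ξ hξ
    have e : (((D * Fam.const F * Fam.pullback (pullback.fst sC sT) E) ξ :
        ((pullback sC sT).functionField)ˣ) : (pullback sC sT).functionField) =
        (F : (pullback sC sT).functionField) *
          ((D ξ : ((pullback sC sT).functionField)ˣ) : (pullback sC sT).functionField) *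
          ((Fam.pullback (pullback.fst sC sT) E ξ : ((pullback sC sT).functionField)ˣ) :
            (pullback sC sT).functionField) := by
      show ((D ξ * F * Fam.pullback (pullback.fst sC sT) E ξ :
        ((pullback sC sT).functionField)ˣ) : (pullback sC sT).functionField) = _
      rw [Units.val_mul, Units.val_mul, mul_comm (D ξ : (pullback sC sT).functionField)]
    rw [e]; exact this
  · right
    intro ξ _ hξ
    have := hF ξ hξ
    have e : (((D⁻¹ * Fam.const F * Fam.pullback (pullback.fst sC sT) E) ξ :
        ((pullback sC sT).functionField)ˣ) : (pullback sC sT).functionField) =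
        (F : (pullback sC sT).functionField) *
          (((D ξ)⁻¹ : ((pullback sC sT).functionField)ˣ) : (pullback sC sT).functionField) *
          ((Fam.pullback (pullback.fst sC sT) E ξ : ((pullback sC sT).functionField)ˣ) :
            (pullback sC sT).functionField) := by
      show (((D ξ)⁻¹ * F * Fam.pullback (pullback.fst sC sT) E ξ :
        ((pullback sC sT).functionField)ˣ) : (pullback sC sT).functionField) = _
      rw [Units.val_mul, Units.val_mul,
        mul_comm (((D ξ)⁻¹ : ((pullback sC sT).functionField)ˣ) : (pullback sC sT).functionField)]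
    rw [e]; exact this

end

end Fermat.Agent.S26.CxT2925
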