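/-
S26 / P14 SEESAW: the Riemann input `hRiem` of `seesaw_of_riemann` from
* the lead's frozen P12 export `exists_riemann_genus` (CurveAlg.lean),
* the P13 export `CURVEK.K3` (origin/helper803, `CURVEK/L20_Export.lean`),
* the dictionary for the curve `C` (`CurveDict`, = P12 Part B),
* `trdeg_K K(C) = 1`.
Author: helper2925.
-/
import Fermat.Agent.S26.H2925.SeesawTop
import Fermat.Agent.S26.CurveAlg
import Fermat.Agent.S26.CURVEK.L20_Export
import Fermat.Agent.S26.CURVEK.L14_FromTensor

set_option autoImplicit false

universe u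

open CategoryTheory CategoryTheory.Limits AlgebraicGeometry AlgebraicCurve

namespace Fermat.Agent.S26.CxT2925

open Fermat.Agent.S26 Fermat.Agent.S26.SEESAW.H7004 Fermat.Agent.S26.DIV.H2384

noncomputable section

variable {K : Type u} [Field K] {C T : Scheme.{u}}

/-- The dictionary between Prelude divisors of `K(C)/K` and Cartier families on the curve `C`
(P12 Part B / blueprint (DICT1), (DICT2)): every divisor `E0` is the divisor of a Cartier family
`E`, and `L(E) ⊆ L(E0)`. -/
def CurveDict (sC : C ⟶ Spec (CommRingCat.of K)) [IsIntegral C] : Prop :=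
  ∀ E0 : Divisor K (FF sC), ∃ E : Fam C, E.IsCartier ∧ CURVEK.IsDivisorOf sC E E0 ∧
    ∀ h : (C.functionField)ˣ,
      (∀ x : C, (h : C.functionField) * ((E x : (C.functionField)ˣ) : C.functionField) ∈
        localRing C x) → ((h : C.functionField) : FF sC) ∈ riemannRochSpace E0

/-- A nonzero constant is a unit at every point. -/
theorem isUnitAt_constHom [IsIntegral C] (sC : C ⟶ Spec (CommRingCat.of K)) (c : K) (x : C) :
    IsUnitAt x (constHom sC c) := by
  refine ⟨constHom_mem_localRing sC c x, ?_⟩
  rw [← map_inv₀]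
  exact constHom_mem_localRing sC c⁻¹ x

/-- `l(E0) = 1` and `E0 ≥ 0` imply that `L(E0)` consists of the constants. -/
theorem eq_algebraMap_of_finrank_eq_one {F : Type u} [Field F] [Algebra K F]
    (E0 : Divisor K F) (hE0 : 0 ≤ E0) (h1 : Module.finrank K (riemannRochSpace E0) = 1)
    (f : F) (hf : f ∈ riemannRochSpace E0) : ∃ c : K, f = algebraMap K F c := by
  have hone : (1 : F) ∈ riemannRochSpace E0 := by
    rw [mem_riemannRochSpace_iff]
    intro v
    right
    rw [Place.ord_one]
    have := Finsupp.le_def.mp hE0 v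
    simpa using this
  have hne : (⟨1, hone⟩ : riemannRochSpace E0) ≠ 0 := by
    intro h
    have := congrArg Subtype.val h
    exact one_ne_zero this
  obtain ⟨c, hc⟩ := (finrank_eq_one_iff_of_nonzero' (⟨1, hone⟩ : riemannRochSpace E0) hne).1 h1
    ⟨f, hf⟩
  refine ⟨c, ?_⟩
  have := congrArg Subtype.val hc
  simp only [Submodule.coe_smul] at this
  rw [← this, Algebra.smul_def, mul_one]

/-- **The Riemann input of the seesaw theorem** from the P12 and P13 exports and the dictionary
for `C`. -/
theorem riemann_input [IsAlgClosed K] (sC : C ⟶ Spec (CommRingCat.of K))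
    (sT : T ⟶ Spec (CommRingCat.of K)) (hC : IsSmoothProperCurve sC)
    [IsIntegral C] [IsIntegral T] [Smooth sT] [IsProper sT] [IsIntegral (pullback sC sT)]
    (htr : Algebra.trdeg K (FF sC) = 1) (hdict : CurveDict sC) :
    ∃ E : Fam C, E.IsCartier ∧
      (∀ h : (C.functionField)ˣ,
        (∀ x : C, (h : C.functionField) * ((E x : (C.functionField)ˣ) : C.functionField) ∈
          localRing C x) → ∀ x : C, IsUnitAt x (h : C.functionField)) ∧
      ∀ D : Fam (pullback sC sT), D.IsCartier →
        (∀ t : Pts sT, Fam.LinEquiv (Fam.pullc (sliceL sC t) D) 1) →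
        ∃ F : ((pullback sC sT).functionField)ˣ,
          (∀ x : ↥(pullback sC sT), (pullback.snd sC sT).base x = genericPoint T →
            (F : (pullback sC sT).functionField) *
              ((D x : ((pullback sC sT).functionField)ˣ) : (pullback sC sT).functionField) *
              ((Fam.pullback (pullback.fst sC sT) E x : ((pullback sC sT).functionField)ˣ) :
                (pullback sC sT).functionField) ∈ localRing (pullback sC sT) x) ∨
          (∀ x : ↥(pullback sC sT), (pullback.snd sC sT).base x = genericPoint T →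
            (F : (pullback sC sT).functionField) *
              (((D x)⁻¹ : ((pullback sC sT).functionField)ˣ) : (pullback sC sT).functionField) *
              ((Fam.pullback (pullback.fst sC sT) E x : ((pullback sC sT).functionField)ˣ) :
                (pullback sC sT).functionField) ∈ localRing (pullback sC sT) x) := by
  have hsm1 : SmoothOfRelativeDimension 1 sC := hC.smooth
  have hsmC : Smooth sC := SmoothOfRelativeDimension.smooth 1 sC
  have hprop : IsProper sC := hC.proper
  have hsmX : Smooth (pullback.fst sC sT ≫ sC) := inferInstance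
  have hess : Algebra.EssFiniteType K (FF sC) := essFiniteType_FF sC
  obtain ⟨-, -, γ, hR, E0, hE0, hdeg, hfin⟩ := exists_riemann_genus K (FF sC) htr
  obtain ⟨E, hE, hdiv, hL⟩ := hdict E0
  refine ⟨E, hE, ?_, ?_⟩
  · intro h hh x
    obtain ⟨c, hc⟩ := eq_algebraMap_of_finrank_eq_one E0 hE0 hfin _ (hL h hh)
    have hc' : (h : C.functionField) = constHom sC c := hc
    rw [hc']
    exact isUnitAt_constHom sC c x
  · intro D hD _
    have hopenC : IsOpenMap (pullback.fst sC sT) := (pullback.fst sC sT).isOpenMap
    have hopenT : IsOpenMap (pullback.snd sC sT) := (pullback.snd sC sT).isOpenMap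
    have hFF : CURVEK.IsFF1 K (FF sC) :=
      CURVEK.isFF1_of_trdeg_one (IntermediateField.fg_top K (FF sC)) htr
    obtain ⟨F0, hF0⟩ := CURVEK.K3 sC sT (pullback.fst sC sT) (pullback.snd sC sT)
      (IsPullback.of_hasPullback sC sT) (map_genericPoint_of_isOpenMap _ hopenC)
      (map_genericPoint_of_isOpenMap _ hopenT)
      (fun x => stalk_isIntegrallyClosed_of_smooth (pullback.fst sC sT ≫ sC) x)
      hFF (γ : ℤ) hR E hE E0 hdiv hdeg.ge D hD
    refine ⟨F0, ?_⟩
    rcases hF0 with h | h
    · left
      intro x hx
      have := h x hx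
      simpa only [Units.val_mul] using this
    · right
      intro x hx
      have := h x hx
      simpa only [Units.val_mul] using this

/-- **Seesaw** (frozen P14 export) from the P12/P13 exports, the dictionary for `C` and
`trdeg_K K(C) = 1`. -/
theorem seesaw_of_dict [IsAlgClosed K] (sC : C ⟶ Spec (CommRingCat.of K))
    (sT : T ⟶ Spec (CommRingCat.of K)) (hC : IsSmoothProperCurve sC)
    [IsIntegral C] [IsIntegral T] [Smooth sT] [IsProper sT] [IsIntegral (pullback sC sT)]
    (htr : Algebra.trdeg K (FF sC) = 1) (hdict : CurveDict sC)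
    (c₀ : Pts sC) (D : Fam (pullback sC sT)) (hD : D.IsCartier)
    (h₁ : ∀ t : Pts sT, Fam.LinEquiv (Fam.pullc (sliceL sC t) D) 1)
    (h₂ : Fam.LinEquiv (Fam.pullc (sliceR c₀ sT) D) 1) :
    Fam.LinEquiv D 1 :=
  seesaw_of_riemann sC sT hC (riemann_input sC sT hC htr hdict) c₀ D hD h₁ h₂

end

end Fermat.Agent.S26.CxT2925
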