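/-
S26 / P14 SEESAW: the curve dictionary `CurveDict sC` (input of `riemann_input`) from the
P12 Part B statements of origin/helper736 (`CURVE/B1 .. B5c`), and the final assembly.
Author: helper2925.
-/
import Fermat.Agent.S26.H2925.RiemannInput
import Fermat.Agent.S26.CURVE.B4_Points
import Fermat.Agent.S26.CURVE.B5a_Support
import Fermat.Agent.S26.CURVE.B5c_Surj
import Fermat.Agent.S26.FF.FromFinite
import Fermat.Agent.S26.SETUP.Trdeg

set_option autoImplicit false

universe u

open CategoryTheory CategoryTheory.Limits AlgebraicGeometry AlgebraicCurve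

namespace Fermat.Agent.S26.CxT2925

open Fermat.Agent.S26

noncomputable section

variable {K : Type u} [Field K] {C T : Scheme.{u}}

/-- A centre of a place on a complete normal curve is its point `ptOf`. -/
theorem eq_ptOf_of_dominates [IsIntegral C] (sC : C ⟶ Spec (CommRingCat.of K))
    (hCC : CURVE.IsCompleteCurve sC) (w : Place K (FF sC)) (c : C)
    (hdom : CURVEK.Dominates c w.toValuationSubring) : c = CURVE.ptOf sC w := by
  have hc : c ≠ genericPoint C := by
    rintro rfl
    have h1 := hdom.1
    rw [CURVE.localRing_genericPoint] at h1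
    apply w.ne_top'
    refine SetLike.ext fun f => ⟨fun _ => ValuationSubring.mem_top f, fun _ => ?_⟩
    exact h1 (Subring.mem_top _)
  obtain ⟨v, hv⟩ := CURVE.exists_place_localRing sC hCC hc
  have hle : v.toValuationSubring ≤ w.toValuationSubring := by
    intro f hf
    have : f ∈ v.toValuationSubring.toSubring := hf
    rw [hv] at this
    exact hdom.1 this
  have hvw : v = w := CURVE.place_eq_of_le hle
  subst hvw
  exact CURVE.eq_of_localRing_eq sC hCC.separated v.toValuationSubring hv.symm
    (CURVE.localRing_ptOf sC hCC v)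

/-- The dictionary for a complete normal curve, from P12 Part B. -/
theorem curveDict_of_completeCurve [IsIntegral C] (sC : C ⟶ Spec (CommRingCat.of K))
    (hCC : CURVE.IsCompleteCurve sC) : CurveDict sC := by
  intro E0
  obtain ⟨E, hE, hEdiv⟩ := CURVE.exists_fam_toDiv sC hCC E0
  have hord : ∀ v : Place K (FF sC), E0 v =
      v.ord (((E (CURVE.ptOf sC v) : (C.functionField)ˣ) : C.functionField) : FF sC) := by
    intro v
    rw [← hEdiv, CURVE.toDiv_apply sC hCC hE v]
    rfl
  refine ⟨E, hE, ?_, ?_⟩
  · intro w c hdom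
    rw [eq_ptOf_of_dominates sC hCC w c hdom]
    exact hord w
  · intro h hh
    change @Membership.mem (FF sC) (Submodule K (FF sC)) _ (riemannRochSpace E0)
      ((h : (C.functionField)ˣ) : C.functionField)
    rw [mem_riemannRochSpace_iff]
    intro v
    right
    have h1 := hh (CURVE.ptOf sC v)
    rw [CURVE.mem_localRing_ptOf_iff sC hCC v] at h1
    have hne1 : (((h : (C.functionField)ˣ) : C.functionField) : FF sC) ≠ 0 := Units.ne_zero h
    have hne2 : ((((E (CURVE.ptOf sC v) : (C.functionField)ˣ)) : C.functionField) : FF sC) ≠ 0 :=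
      Units.ne_zero _
    have h2 : v.ord ((((h : (C.functionField)ˣ) : C.functionField) : FF sC) *
        ((((E (CURVE.ptOf sC v) : (C.functionField)ˣ)) : C.functionField) : FF sC)) =
        v.ord (((h : (C.functionField)ˣ) : C.functionField) : FF sC) +
        v.ord ((((E (CURVE.ptOf sC v) : (C.functionField)ˣ)) : C.functionField) : FF sC) :=
      Place.ord_mul v hne1 hne2
    have h3 : 0 ≤ v.ord (((h : (C.functionField)ˣ) : C.functionField) : FF sC) +
        v.ord ((((E (CURVE.ptOf sC v) : (C.functionField)ˣ)) : C.functionField) : FF sC) := by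
      rw [← h2]; exact h1
    rw [hord v]
    linarith

/-- A smooth proper curve is a complete normal curve in the sense of P12 Part B. -/
theorem isCompleteCurve_of_smoothProper [IsAlgClosed K] [IsIntegral C]
    (sC : C ⟶ Spec (CommRingCat.of K)) (hC : IsSmoothProperCurve sC)
    (htr : Algebra.trdeg K (FF sC) = 1) (hff1 : FF.IsFF1 K (FF sC)) :
    CURVE.IsCompleteCurve sC := by
  have hsm1 : SmoothOfRelativeDimension 1 sC := hC.smooth
  have hsmC : Smooth sC := SmoothOfRelativeDimension.smooth 1 sC
  have hprop : IsProper sC := hC.proper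
  have hess : Algebra.EssFiniteType K (FF sC) := essFiniteType_FF sC
  obtain ⟨hpd, -⟩ := exists_riemann_genus K (FF sC) htr
  refine ⟨inferInstance, inferInstance, fun x => stalk_isIntegrallyClosed_of_smooth sC x, hff1, ?_⟩
  intro t ht
  have ht0 : t ≠ 0 := by
    rintro rfl
    exact ht (isAlgebraic_zero)
  obtain ⟨D, hD, -⟩ := hpd.exists_divisor t ht0
  refine D.support.finite_toSet.subset ?_
  intro v hv
  have hv' : 0 < v.ord t := hv
  simp only [Finset.mem_coe, Finsupp.mem_support_iff]
  rw [hD v]
  exact hv'.ne'

/-- The lead's `constHom` is the algebra map of helper1163's `SETUP.functionFieldAlgebra`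
(copied from origin/helper1163 `SETUP/Exports12.lean`). -/
theorem functionFieldAlgebra_eq_FF [IsIntegral C] (s : C ⟶ Spec (CommRingCat.of K)) :
    SETUP.functionFieldAlgebra s = (inferInstance : Algebra K (FF s)) := by
  refine Algebra.algebra_ext _ _ (fun c => ?_)
  have h : constHom s = SETUP.stalkAlgebraMap s (genericPoint C) := by
    refine RingHom.ext (fun c => ?_)
    unfold constHom SETUP.stalkAlgebraMap SETUP.sectionsAlgebraMap
    simp only [RingHom.comp_apply]
    exact (TopCat.Presheaf.germ_res_apply C.presheaf (homOfLE (le_top : (⊤ : C.Opens) ≤ ⊤))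
      (genericPoint C) trivial _).symm
  exact (congrArg (fun φ : K →+* C.functionField => φ c) h).symm

/-- The function field of a smooth curve has transcendence degree one. -/
theorem trdeg_FF_curve [IsIntegral C] (sC : C ⟶ Spec (CommRingCat.of K))
    (hC : IsSmoothProperCurve sC) : Algebra.trdeg K (FF sC) = 1 := by
  have hsm1 : SmoothOfRelativeDimension 1 sC := hC.smooth
  have h := SETUP.trdeg_functionField sC 1
  rw [functionFieldAlgebra_eq_FF sC] at h
  have h' : Algebra.trdeg K (FF sC) = ((1 : ℕ) : Cardinal.{u}) := h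
  rw [h', Nat.cast_one]

/-- **Seesaw**: the frozen P14 export `Fermat.Agent.S26.seesaw` with EXACTLY the frozen signature.
Black boxes: frozen P6 exports (`stalk_isIntegrallyClosed_of_smooth`, `essFiniteType_FF`), the
lead's frozen P12 export `exists_riemann_genus`, and P13 `CURVEK.K3` + `CURVEK.isFF1_of_trdeg_one`
(origin/helper803; open leaves L12, L13, L15-L19).  Everything else is proved. -/
theorem seesaw_final [IsAlgClosed K] (sC : C ⟶ Spec (CommRingCat.of K))
    (sT : T ⟶ Spec (CommRingCat.of K)) (hC : IsSmoothProperCurve sC)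
    [IsIntegral C] [IsIntegral T] [Smooth sT] [IsProper sT] [IsIntegral (pullback sC sT)]
    (c₀ : Pts sC) (D : Fam (pullback sC sT)) (hD : D.IsCartier)
    (h₁ : ∀ t : Pts sT, Fam.LinEquiv (Fam.pullc (sliceL sC t) D) 1)
    (h₂ : Fam.LinEquiv (Fam.pullc (sliceR c₀ sT) D) 1) :
    Fam.LinEquiv D 1 := by
  have hsm1 : SmoothOfRelativeDimension 1 sC := hC.smooth
  have hsmC : Smooth sC := SmoothOfRelativeDimension.smooth 1 sC
  have htr : Algebra.trdeg K (FF sC) = 1 := trdeg_FF_curve sC hC
  have hess : Algebra.EssFiniteType K (FF sC) := essFiniteType_FF sC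
  have hff1 : FF.IsFF1 K (FF sC) := FF.isFF1_of_essFiniteType_of_trdeg htr
  exact seesaw_of_dict sC sT hC htr
    (curveDict_of_completeCurve sC (isCompleteCurve_of_smoothProper sC hC htr hff1)) c₀ D hD h₁ h₂

end

end Fermat.Agent.S26.CxT2925
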